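import Fermat.Agent.ThompsonTransfer.FixedPointFree
import Mathlib.GroupTheory.IndexNormal

/-!
# Fixed-point-free groups of automorphisms

In a group acting fixed-point-freely on a nontrivial finite group an element of prime order
normalising a subgroup of prime order cannot have all its translates by it of the same order, so
commuting elements of one prime order generate the same subgroup, groups of order `p q` are cyclic
and an involution is unique, central and inverts.
-/

set_option autoImplicit false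
set_option linter.style.haveILetI false

universe u v

namespace FA.FrobeniusComplements

open Subgroup FA.Thompson

variable {H : Type u} [Group H] {K : Type v} [Group K]

/-- No element but the identity has a fixed point but the identity. -/
def FpfAction (φ : H →* MulAut K) : Prop := ∀ h : H, h ≠ 1 → Fpf (φ h)

theorem exists_prime_pow_eq_one [Finite H] {h : H} (hh : h ≠ 1) :
    ∃ m r : ℕ, r.Prime ∧ h ^ m ≠ 1 ∧ (h ^ m) ^ r = 1 := by
  have hne : orderOf h ≠ 1 := fun h1 => hh (orderOf_eq_one_iff.1 h1)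
  obtain ⟨r, hr, hd⟩ := Nat.exists_prime_and_dvd hne
  refine ⟨orderOf h / r, r, hr, ?_, ?_⟩
  · exact pow_ne_one_of_lt_orderOf
      (Nat.div_pos (Nat.le_of_dvd (orderOf_pos h) hd) hr.pos).ne'
      (Nat.div_lt_self (orderOf_pos h) hr.one_lt)
  · rw [← pow_mul, Nat.div_mul_cancel hd, pow_orderOf_eq_one]

variable [Finite H] [Finite K] {φ : H →* MulAut K}

theorem isNilpotent_of_action [Nontrivial H] (hφ : FpfAction φ) : Group.IsNilpotent K := by
  obtain ⟨h, hh⟩ := exists_ne (1 : H)
  obtain ⟨m, r, hr, hne, hpow⟩ := exists_prime_pow_eq_one hh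
  exact isNilpotent_of_fpf hr (φ (h ^ m)) (by rw [← map_pow, hpow, map_one]) (hφ _ hne)

omit [Finite H] [Finite K] in
/-- A nilpotent group has nontrivial centre. -/
theorem center_ne_bot_of_isNilpotent [Nontrivial K] [hK : Group.IsNilpotent K] :
    center K ≠ ⊥ := by
  intro hc
  obtain ⟨m, hm⟩ := hK.nilpotent
  have h1 : ∀ k, Subgroup.upperCentralSeries K k = ⊥ := by
    intro k
    induction k with
    | zero => exact Subgroup.upperCentralSeries_zero K
    | succ k ih =>
      refine (eq_bot_iff_forall _).2 fun x hx => ?_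
      rw [← mem_bot (x := x), ← hc, mem_center_iff]
      intro y
      have h2 := Subgroup.mem_upperCentralSeries_succ_iff.1 hx y
      rw [ih, mem_bot, commutatorElement_def, mul_inv_eq_one, mul_inv_eq_iff_eq_mul] at h2
      exact h2.symm
  exact top_ne_bot (hm.symm.trans (h1 m))

omit [Finite H] in
/-- The order of a `p`-group acting fixed-point-freely is prime to that of the group acted on. -/
theorem not_dvd_card_of_fpf {p : ℕ} [Fact p.Prime] (hφ : FpfAction φ) {P : Subgroup H}
    (hP : IsPGroup p P) (hP0 : P ≠ ⊥) : ¬ p ∣ Nat.card K := by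
  intro hd
  letI : MulAction P K := MulAction.compHom K (φ.comp P.subtype)
  obtain ⟨k, hk, hk1⟩ := hP.exists_fixed_point_of_prime_dvd_card_of_fixed_point K hd (a := (1 : K))
    (fun x => map_one (φ x))
  obtain ⟨x, hx, hx1⟩ := (bot_or_exists_ne_one P).resolve_left hP0
  exact hk1 (hφ x hx1 k (hk ⟨x, hx⟩)).symm

/-- **The partition identity.** -/
theorem not_frame [Nontrivial K] (hφ : FpfAction φ) (P : Subgroup H) {p q : ℕ} [Fact p.Prime]
    (hPc : Nat.card P = p) {b : H} (hb : b ∉ P) (hbn : b ∈ normalizer (P : Set H)) (hq : q.Prime)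
    (hord : ∀ x ∈ P, (x * b) ^ q = 1) : False := by
  classical
  haveI := Fintype.ofFinite P
  haveI : Nontrivial H := ⟨⟨b, 1, fun h => hb (h ▸ P.one_mem)⟩⟩
  haveI := isNilpotent_of_action hφ
  set Z := center K with hZ
  obtain ⟨v, hv, hv1⟩ := (bot_or_exists_ne_one Z).resolve_left center_ne_bot_of_isNilpotent
  have hmem : ∀ (h : H) (z : K), z ∈ Z → φ h z ∈ Z := fun h z hz => mem_center_iff.2 fun y => by
    obtain ⟨y', rfl⟩ := (φ h).surjective y
    rw [← map_mul, ← map_mul, mem_center_iff.1 hz y']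
  let ψ : H →* MulAut Z :=
    { toFun := fun h => restrictAut (φ h) Z (inv_of_le (hmem h))
      map_one' := MulEquiv.ext fun z => Subtype.ext (by rw [restrictAut_apply, map_one]; rfl)
      map_mul' := fun x y => MulEquiv.ext fun z => Subtype.ext (by
        rw [restrictAut_apply, map_mul, MulAut.mul_apply, MulAut.mul_apply, restrictAut_apply,
          restrictAut_apply]) }
  have hψ : ∀ h, h ≠ 1 → Fpf (ψ h) := fun h hh z hz =>
    Subtype.ext (hφ h hh _ (congrArg Subtype.val hz))
  letI : CommGroup Z := { (inferInstance : Group Z) with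
    mul_comm := fun a b => Subtype.ext (mem_center_iff.1 b.2 a) }
  set w : Z := ⟨v, hv⟩ with hw
  -- the sum over each cyclic subgroup vanishes
  have hS : ∀ x : P, ∏ j ∈ Finset.range q, ψ (((x : H) * b) ^ j) w = 1 := by
    intro x
    set y := (x : H) * b with hy
    have hy1 : y ≠ 1 := fun h => hb (by
      have h1 := P.mul_mem (P.inv_mem x.2) P.one_mem
      rwa [← h, hy, inv_mul_cancel_left] at h1)
    refine hψ y hy1 _ ?_
    rw [map_prod]
    have h1 : ∀ j, ψ y (ψ (y ^ j) w) = ψ (y ^ (j + 1)) w := fun j => by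
      rw [← MulAut.mul_apply, ← map_mul, ← pow_succ']
    simp only [h1]
    have h2 := Finset.prod_range_succ (fun j => ψ (y ^ j) w) q
    rw [Finset.prod_range_succ' (fun j => ψ (y ^ j) w) q, hy, hord x x.2, ← hy, pow_zero] at h2
    exact mul_right_cancel h2
  -- the sums over the cosets vanish
  have hco : ∀ (x : P) (j : ℕ), ((x : H) * b) ^ j * (b ^ j)⁻¹ ∈ P := by
    intro x j
    induction j with
    | zero => simp
    | succ j ih =>
      have h1 : b ^ j * (x : H) * (b ^ j)⁻¹ ∈ P :=
        (mem_normalizer_iff.1 (pow_mem hbn j) x).1 x.2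
      have h2 := P.mul_mem ih h1
      convert h2 using 1
      rw [pow_succ, pow_succ b]
      group
  have hcoset : ∀ j : ℕ, j ≠ 0 → j < q → ∏ x : P, ψ (((x : H) * b) ^ j) w = 1 := by
    intro j hj hjq
    let e : P → P := fun x => ⟨((x : H) * b) ^ j * (b ^ j)⁻¹, hco x j⟩
    have he : Function.Injective e := by
      intro x x' hxx
      have h1 : ((x : H) * b) ^ j = ((x' : H) * b) ^ j :=
        mul_right_cancel (congrArg Subtype.val hxx)
      have hgcd : (1 : ℤ) = j * Nat.gcdA j q + q * Nat.gcdB j q := by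
        rw [← Nat.gcd_eq_gcd_ab]
        have h2 : Nat.gcd j q = 1 := ((hq.coprime_iff_not_dvd.2 fun hd =>
          hj (Nat.eq_zero_of_dvd_of_lt hd hjq)).symm)
        rw [h2, Nat.cast_one]
      have hz : ∀ y : H, y ^ q = 1 → y = (y ^ j) ^ Nat.gcdA j q := fun y hy => by
        conv_lhs => rw [← zpow_one y, hgcd, zpow_add, zpow_mul, zpow_mul, zpow_natCast,
          zpow_natCast, hy, one_zpow, mul_one]
      have h2 : (x : H) * b = x' * b := by
        rw [hz _ (hord x x.2), hz ((x' : H) * b) (hord x' x'.2), h1]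
      exact Subtype.ext (mul_right_cancel h2)
    have hbij : Function.Bijective e := Finite.injective_iff_bijective.1 he
    have h1 : ∏ x : P, ψ (((x : H) * b) ^ j) w = ∏ x : P, ψ (x : H) (ψ (b ^ j) w) := by
      refine Eq.trans (Finset.prod_congr rfl fun x _ => ?_)
        (hbij.prod_comp fun x : P => ψ (x : H) (ψ (b ^ j) w))
      show _ = ψ (((x : H) * b) ^ j * (b ^ j)⁻¹) (ψ (b ^ j) w)
      rw [← MulAut.mul_apply, ← map_mul, inv_mul_cancel_right]
    rw [h1]
    obtain ⟨y, hy, hy1⟩ := (bot_or_exists_ne_one P).resolve_left fun h0 => by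
      rw [h0, card_bot] at hPc
      exact (Fact.out : p.Prime).ne_one hPc.symm
    refine hψ y hy1 _ ?_
    rw [map_prod]
    refine Eq.trans (Finset.prod_congr rfl fun x _ => ?_)
      (Equiv.prod_comp (Equiv.mulLeft (⟨y, hy⟩ : P)) fun x : P => ψ (x : H) (ψ (b ^ j) w))
    rw [Equiv.coe_mulLeft, coe_mul, map_mul ψ, MulAut.mul_apply]
  obtain ⟨q', rfl⟩ := Nat.exists_eq_succ_of_ne_zero hq.ne_zero
  have htot : ∏ j ∈ Finset.range (q' + 1), ∏ x : P, ψ (((x : H) * b) ^ j) w = 1 := by
    rw [Finset.prod_comm]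
    exact Finset.prod_eq_one fun x _ => hS x
  rw [Finset.prod_range_succ', Finset.prod_eq_one fun j hj =>
    hcoset (j + 1) (Nat.succ_ne_zero j) (Nat.succ_lt_succ (Finset.mem_range.1 hj)), one_mul,
    Finset.prod_congr rfl fun x _ => (show ψ ((((x : P) : H) * b) ^ 0) w = w by
      rw [pow_zero, map_one, MulAut.one_apply]), Finset.prod_const, Finset.card_univ, ← Nat.card_eq_fintype_card,
    hPc] at htot
  have hvp : v ^ p = 1 := congrArg Subtype.val htot
  have hdvd : p ∣ Nat.card K := orderOf_eq_prime hvp hv1 ▸ orderOf_dvd_natCard v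
  exact not_dvd_card_of_fpf hφ (IsPGroup.of_card (n := 1) (by rw [pow_one, hPc]))
    (fun h0 => by rw [h0, card_bot] at hPc; exact (Fact.out : p.Prime).ne_one hPc.symm) hdvd

/-- **Commuting elements of the same prime order generate the same subgroup.** -/
theorem mem_zpowers_of_commute [Nontrivial K] (hφ : FpfAction φ) {p : ℕ} [hp : Fact p.Prime]
    {a b : H} (ha : orderOf a = p) (hb : b ^ p = 1) (hab : Commute a b) : b ∈ zpowers a := by
  by_contra hn
  refine not_frame hφ (zpowers a) (q := p) (by rw [Nat.card_zpowers, ha]) hn ?_ hp.out ?_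
  · refine centralizer_le_normalizer _ (mem_centralizer_iff.2 ?_)
    rintro _ ⟨i, rfl⟩
    exact (hab.zpow_left i).eq
  · rintro _ ⟨i, rfl⟩
    dsimp only
    rw [(hab.zpow_left i).mul_pow, hb, mul_one, ← zpow_natCast, ← zpow_mul, mul_comm, zpow_mul,
      zpow_natCast, ← ha, pow_orderOf_eq_one, one_zpow]

/-- **Groups of order `p q` are cyclic.** -/
theorem isCyclic_of_card_mul [Nontrivial K] (hφ : FpfAction φ) {p q : ℕ} (hp : p.Prime)
    (hq : q.Prime) {E : Subgroup H} (hE : Nat.card E = p * q) : IsCyclic E := by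
  wlog hle : q ≤ p generalizing p q
  · exact this hq hp (by rw [hE, mul_comm]) (le_of_not_ge hle)
  haveI : Fact p.Prime := ⟨hp⟩
  by_contra hcyc
  have hord : ∀ z : E, orderOf z = 1 ∨ orderOf z = p ∨ orderOf z = q := by
    intro z
    have hd : orderOf z ∣ p * q := hE ▸ orderOf_dvd_natCard z
    obtain ⟨d₁, d₂, h1, h2, h3⟩ := exists_dvd_and_dvd_of_dvd_mul hd
    rcases (Nat.dvd_prime hp).1 h1 with rfl | rfl <;> rcases (Nat.dvd_prime hq).1 h2 with rfl | rfl
    · exact Or.inl h3
    · exact Or.inr (Or.inr (h3.trans (one_mul _)))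
    · exact Or.inr (Or.inl (h3.trans (mul_one _)))
    · exact absurd (isCyclic_of_orderOf_eq_card z (h3.trans hE.symm)) hcyc
  obtain ⟨a, ha⟩ := exists_prime_orderOf_dvd_card' p (hE ▸ dvd_mul_right p q : p ∣ Nat.card E)
  set P := zpowers a with hP
  have hPc : Nat.card P = p := by rw [hP, Nat.card_zpowers, ha]
  have hPi : P.index = q := by
    have := P.card_mul_index
    rw [hPc, hE] at this
    exact Nat.eq_of_mul_eq_mul_left hp.pos this
  haveI : P.Normal := by
    refine normal_of_index_eq_minFac_card ?_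
    rw [hPi, hE]
    refine le_antisymm ?_ (Nat.minFac_le_of_dvd hq.two_le (dvd_mul_left q p))
    have hm := Nat.minFac_prime (n := p * q) fun h => hp.ne_one (Nat.eq_one_of_mul_eq_one_right h)
    rcases hm.dvd_mul.1 (Nat.minFac_dvd (p * q)) with h | h
    · rw [(Nat.prime_dvd_prime_iff_eq hm hp).1 h]; exact hle
    · rw [(Nat.prime_dvd_prime_iff_eq hm hq).1 h]
  obtain ⟨b, hb⟩ : ∃ b : E, b ∉ P := by
    by_contra h
    push Not at h
    have h1 : P = ⊤ := eq_top_iff.2 fun z _ => h z
    rw [h1, index_top] at hPi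
    exact hq.ne_one hPi.symm
  have hout : ∀ z : E, z ∉ P → orderOf z = q := by
    intro z hz
    rcases hord z with h | h | h
    · exact absurd (orderOf_eq_one_iff.1 h ▸ P.one_mem) hz
    · -- then `p = q` or `p` divides the index
      have h1 : z ^ P.index ∈ P := P.pow_index_mem z
      rw [hPi] at h1
      by_contra hne
      obtain ⟨m, hm⟩ := exists_pow_eq_self_of_coprime (n := q) (x := z)
        (by rw [h]; exact (Nat.coprime_primes hq hp).2 (fun hqp => hne (by rw [h, hqp])))
      exact hz (hm ▸ pow_mem h1 m)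
    · exact h
  refine not_frame hφ (P.map E.subtype) (q := q) (b := (b : H))
    (by rw [card_map_of_injective E.subtype_injective, hPc]) ?_
    (le_normalizer_map E.subtype ⟨b, by rw [normalizer_eq_top]; exact mem_top b, rfl⟩) hq ?_
  · rintro ⟨b', hb', he⟩
    exact hb (Subtype.ext he ▸ hb')
  · rintro _ ⟨x, hx, rfl⟩
    show ((x * b : E) : H) ^ q = 1
    rw [← coe_pow]
    have hxb : x * b ∉ P := fun h => hb (by simpa using P.mul_mem (P.inv_mem hx) h)
    rw [← hout _ hxb, pow_orderOf_eq_one, coe_one]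

omit [Finite H] [Finite K] in
/-- The action is faithful. -/
theorem injective_of_fpf [Nontrivial K] (hφ : FpfAction φ) : Function.Injective φ :=
  (injective_iff_map_eq_one φ).2 fun h hh => by
    by_contra hne
    obtain ⟨k, hk⟩ := exists_ne (1 : K)
    exact hk (hφ h hne k (by rw [hh]; rfl))

omit [Finite H] in
/-- An involution inverts. -/
theorem apply_eq_inv (hφ : FpfAction φ) {t : H} (ht : t ≠ 1) (ht2 : t ^ 2 = 1) (k : K) :
    φ t k = k⁻¹ := by
  have h : MonoidHom.FixedPointFree (φ t) := hφ t ht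
  have h2 : Function.Involutive (φ t) := fun x => by
    rw [← MulAut.mul_apply, ← map_mul, ← sq, ht2, map_one]
    rfl
  rw [h.coe_eq_inv_of_involutive h2]

omit [Finite H] in
theorem commute_of_involution (hφ : FpfAction φ) {t : H} (ht : t ≠ 1) (ht2 : t ^ 2 = 1)
    (a b : K) : a * b = b * a := by
  have h := map_mul (φ t) a b
  rw [apply_eq_inv hφ ht ht2, apply_eq_inv hφ ht ht2, apply_eq_inv hφ ht ht2, mul_inv_rev] at h
  have h1 := congrArg (·⁻¹) h
  simp only [mul_inv_rev, inv_inv] at h1
  exact h1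

omit [Finite H] in
/-- **The involution is unique and central.** -/
theorem involution_unique [Nontrivial K] (hφ : FpfAction φ) {t : H} (ht : t ≠ 1)
    (ht2 : t ^ 2 = 1) : (∀ s : H, s ≠ 1 → s ^ 2 = 1 → s = t) ∧ ∀ h : H, h * t = t * h := by
  have huniq : ∀ s : H, s ≠ 1 → s ^ 2 = 1 → s = t := fun s hs hs2 =>
    injective_of_fpf hφ (MulEquiv.ext fun k => by
      rw [apply_eq_inv hφ hs hs2, apply_eq_inv hφ ht ht2])
  refine ⟨huniq, fun h => ?_⟩
  have h1 := huniq (h * t * h⁻¹) (fun he => ht (by
    rw [mul_inv_eq_one, mul_eq_left] at he; exact he)) (by rw [conj_pow, ht2, mul_one, mul_inv_cancel])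
  rwa [mul_inv_eq_iff_eq_mul] at h1

end FA.FrobeniusComplements
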