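import Mathlib.GroupTheory.Nilpotent
import Mathlib.Data.Nat.Choose.Dvd
import Mathlib.GroupTheory.PGroup
import Mathlib.GroupTheory.SpecificGroups.Cyclic
import Mathlib.GroupTheory.SpecificGroups.Quaternion
import Mathlib.Tactic

/-!
# `p`-groups with one subgroup of order `p`

Such a group is cyclic for odd `p`, cyclic or generalised quaternion for `p = 2`.
-/

set_option autoImplicit false
set_option linter.style.haveILetI false

universe u

namespace FA.FrobeniusComplements

open Subgroup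

/-- Two elements killed by `p`, the first of order `p`: the second is a power of the first. -/
def UniqueSubgroup (p : ℕ) (G : Type*) [Group G] : Prop :=
  ∀ a b : G, orderOf a = p → b ^ p = 1 → b ∈ zpowers a

theorem UniqueSubgroup.subgroup {p : ℕ} {G : Type*} [Group G] (h : UniqueSubgroup p G)
    (S : Subgroup G) : UniqueSubgroup p S := by
  intro a b ha hb
  obtain ⟨i, hi⟩ := h (a : G) b (by rw [orderOf_coe, ha]) (by rw [← coe_pow, hb, coe_one])
  exact ⟨i, Subtype.ext (by simpa using hi)⟩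

/-- An abelian group with one subgroup of each prime order is cyclic. -/
theorem isCyclic_of_comm_of_unique {A : Type*} [CommGroup A] [Finite A]
    (h : ∀ p : ℕ, p.Prime → UniqueSubgroup p A) : IsCyclic A := by
  classical
  haveI := Fintype.ofFinite A
  have key : ∀ n : ℕ, n ≠ 0 → Nat.card (powMonoidHom n : A →* A).ker ≤ n := by
    intro n
    induction n using induction_on_primes with
    | zero => intro h0; exact absurd rfl h0
    | one =>
      intro _
      have h1 : (powMonoidHom 1 : A →* A).ker = ⊥ := by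
        ext x
        simp [MonoidHom.mem_ker, powMonoidHom_apply]
      rw [h1, card_bot]
    | prime_mul p m hp ih =>
      intro hpm
      haveI : Fact p.Prime := ⟨hp⟩
      have hp1 : Nat.card (powMonoidHom p : A →* A).ker ≤ p := by
        rcases eq_or_ne (powMonoidHom p : A →* A).ker ⊥ with h0 | h0
        · rw [h0, card_bot]; exact hp.one_le
        · obtain ⟨a, ha, ha1⟩ := (bot_or_exists_ne_one _).resolve_left h0
          have hord : orderOf a = p := orderOf_eq_prime ha ha1
          exact (card_le_of_le (K := zpowers a) fun b hb => h p hp a b hord hb).trans_eq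
            (by rw [Nat.card_zpowers, hord])
      have hm := ih (right_ne_zero_of_mul hpm)
      set K := (powMonoidHom (p * m) : A →* A).ker with hK
      let f : K →* (powMonoidHom p : A →* A).ker :=
        { toFun := fun x => ⟨(x : A) ^ m, by
            rw [MonoidHom.mem_ker, powMonoidHom_apply, ← pow_mul, mul_comm]
            exact x.2⟩
          map_one' := Subtype.ext (one_pow m)
          map_mul' := fun x y => Subtype.ext (mul_pow (x : A) y m) }
      have h1 := f.ker.card_eq_card_quotient_mul_card_subgroup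
      have h2 : Nat.card (K ⧸ f.ker) ≤ p :=
        (Nat.card_congr (QuotientGroup.quotientKerEquivRange f).toEquiv).trans_le
          ((card_le_card_group f.range).trans hp1)
      have h3 : Nat.card f.ker ≤ m := by
        refine le_trans (Nat.card_le_card_of_injective
          (fun x => (⟨((x : K) : A), congrArg Subtype.val x.2⟩ : (powMonoidHom m : A →* A).ker))
          fun x y he => ?_) hm
        exact Subtype.ext (Subtype.ext (congrArg (fun z : (powMonoidHom m : A →* A).ker => (z : A)) he))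
      rw [h1]
      exact Nat.mul_le_mul h2 h3
  refine isCyclic_of_card_pow_eq_one_le fun n hn => ?_
  refine le_trans (le_of_eq ?_) (key n hn.ne')
  rw [Nat.card_eq_fintype_card, Fintype.card_subtype]
  congr 1
  ext x
  simp [MonoidHom.mem_ker, powMonoidHom_apply]

/-- The powers of a product of two elements with central commutator. -/
theorem mul_pow_of_central {G : Type*} [Group G] {x y c : G} (h : x * y = c * (y * x))
    (hcx : Commute c x) (hcy : Commute c y) (n : ℕ) :
    (y * x) ^ n = c ^ n.choose 2 * (y ^ n * x ^ n) := by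
  have hxy : ∀ k : ℕ, x ^ k * y = c ^ k * (y * x ^ k) := by
    intro k
    induction k with
    | zero => simp
    | succ k ih =>
      calc x ^ (k + 1) * y = x * (x ^ k * y) := by rw [pow_succ', mul_assoc]
        _ = (x * c ^ k) * (y * x ^ k) := by rw [ih, mul_assoc]
        _ = c ^ k * (x * y) * x ^ k := by rw [(hcx.pow_left k).symm.eq]; group
        _ = c ^ (k + 1) * (y * x ^ (k + 1)) := by rw [h, pow_succ, pow_succ']; group
  induction n with
  | zero => simp
  | succ n ih =>
    calc (y * x) ^ (n + 1) = c ^ n.choose 2 * (y ^ n * (x ^ n * y) * x) := by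
          rw [pow_succ, ih]; group
      _ = c ^ n.choose 2 * ((y ^ n * c ^ n) * (y * x ^ n) * x) := by rw [hxy]; group
      _ = c ^ n.choose 2 * c ^ n * (y ^ (n + 1) * x ^ (n + 1)) := by
          rw [← ((hcy.pow_left n).pow_right n).eq, pow_succ y, pow_succ x]; group
      _ = _ := by
          rw [← pow_add, show (n + 1).choose 2 = n.choose 2 + n by
            rw [Nat.choose_succ_succ, Nat.choose_one_right, add_comm]]

section PGroup

variable {p : ℕ} [hp : Fact p.Prime] {G : Type u} [Group G] [Finite G]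

omit hp [Finite G] in
theorem eq_one_of_prime_of_ne (hG : IsPGroup p G) {q : ℕ} (hq : q.Prime) (hqp : q ≠ p)
    (hp' : p.Prime) {a : G} (ha : orderOf a = q) : False := by
  obtain ⟨k, hk⟩ := hG a
  have h1 : q ∣ p ^ k := ha ▸ orderOf_dvd_of_pow_eq_one hk
  exact hqp ((Nat.prime_dvd_prime_iff_eq hq hp').1 (hq.dvd_of_dvd_pow h1))

/-- A nontrivial normal subgroup of a `p`-group contains a central element other than `1`. -/
theorem exists_mem_center_of_normal (hG : IsPGroup p G) (N : Subgroup G) [N.Normal]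
    (hN : N ≠ ⊥) : ∃ z ∈ N, z ≠ 1 ∧ z ∈ center G := by
  letI : MulAction G N := MulAction.compHom N (MulAut.conjNormal (H := N))
  obtain ⟨k, hk⟩ := IsPGroup.iff_card.1 (hG.to_subgroup N)
  have hk0 : k ≠ 0 := fun h0 => hN (card_eq_one.1 (by rw [hk, h0, pow_zero]))
  obtain ⟨v, hv, hv1⟩ := hG.exists_fixed_point_of_prime_dvd_card_of_fixed_point N
    (hk ▸ dvd_pow_self p hk0) (a := (1 : N)) (fun x => map_one (MulAut.conjNormal x))
  refine ⟨v, v.2, fun h => hv1 (Subtype.ext h.symm), mem_center_iff.2 fun x => ?_⟩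
  have h1 : ((MulAut.conjNormal x v : N) : G) = v := congrArg Subtype.val (hv x)
  rwa [MulAut.conjNormal_apply, mul_inv_eq_iff_eq_mul] at h1

theorem isCyclic_subgroup_of_comm (hG : IsPGroup p G) (hu : UniqueSubgroup p G) (S : Subgroup G)
    (hS : ∀ a ∈ S, ∀ b ∈ S, a * b = b * a) : IsCyclic S := by
  letI : CommGroup S := { (inferInstance : Group S) with
    mul_comm := fun a b => Subtype.ext (hS a a.2 b b.2) }
  refine isCyclic_of_comm_of_unique (A := S) fun q hq a b ha hb => ?_
  rcases eq_or_ne q p with rfl | hqp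
  · exact hu.subgroup S a b ha hb
  · exact (eq_one_of_prime_of_ne (hG.to_subgroup S) hq hqp hp.out ha).elim

theorem isCyclic_of_commute (hG : IsPGroup p G) (hu : UniqueSubgroup p G)
    (h : ∀ a b : G, a * b = b * a) : IsCyclic G := by
  haveI := isCyclic_subgroup_of_comm hG hu ⊤ fun a _ b _ => h a b
  exact isCyclic_of_surjective (topEquiv (G := G)).toMonoidHom topEquiv.surjective

omit hp [Finite G] in
theorem exists_power_mem {A : Subgroup G} (hG : IsPGroup p G) {g : G} (hg : g ∉ A) :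
    ∃ k : ℕ, g ^ p ^ k ∉ A ∧ (g ^ p ^ k) ^ p ∈ A := by
  obtain ⟨m, hm⟩ := hG g
  by_contra hc
  push Not at hc
  have : ∀ k, g ^ p ^ k ∉ A := by
    intro k
    induction k with
    | zero => simpa using hg
    | succ k ih => rw [pow_succ, pow_mul]; exact hc k ih
  exact this m (by rw [hm]; exact A.one_mem)

omit hp [Finite G] in
theorem mem_zpowers_pow_of_coprime (hG : IsPGroup p G) (hp' : p.Prime) {a : G} {s : ℤ}
    (hs : ¬ (p : ℤ) ∣ s) : a ∈ zpowers (a ^ s) := by
  obtain ⟨k, hk⟩ := hG a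
  obtain ⟨u, v, huv⟩ : IsCoprime s ((p : ℤ) ^ k) :=
    (((Nat.prime_iff_prime_int.1 hp').coprime_iff_not_dvd.2 hs).symm).pow_right
  refine ⟨u, ?_⟩
  show (a ^ s) ^ u = a
  calc (a ^ s) ^ u = a ^ (u * s + v * (p : ℤ) ^ k) := by
        rw [zpow_add, mul_comm v, zpow_mul a ((p : ℤ) ^ k), ← Nat.cast_pow, zpow_natCast, hk,
          one_zpow, mul_one, mul_comm, zpow_mul]
    _ = a := by rw [huv, zpow_one]

theorem exists_orderOf_eq (hG : IsPGroup p G) {S : Subgroup G} (hS : S ≠ ⊥) :
    ∃ z ∈ S, orderOf z = p := by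
  obtain ⟨k, hk⟩ := IsPGroup.iff_card.1 (hG.to_subgroup S)
  have hk0 : k ≠ 0 := fun h0 => hS (card_eq_one.1 (by rw [hk, h0, pow_zero]))
  obtain ⟨z, hz⟩ := exists_prime_orderOf_dvd_card' p (hk ▸ dvd_pow_self p hk0)
  exact ⟨z, z.2, by rw [orderOf_coe, hz]⟩

/-- **Odd `p`: the group is cyclic.** -/
theorem isCyclic_of_unique_odd (hp2 : p ≠ 2) (hG : IsPGroup p G) (hu : UniqueSubgroup p G) :
    IsCyclic G := by
  suffices ∀ (n : ℕ) (G : Type u) [Group G] [Finite G], Nat.card G = n → IsPGroup p G →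
      UniqueSubgroup p G → IsCyclic G from this _ G rfl hG hu
  clear hG hu
  intro n
  induction n using Nat.strong_induction_on with
  | _ n ih =>
  intro G _ _ hn hG hu
  have hsub : ∀ S : Subgroup G, S ≠ ⊤ → IsCyclic S := fun S hS =>
    ih _ (hn ▸ lt_of_le_of_ne S.card_le_card_group fun he => hS (eq_top_of_card_eq _ he)) S rfl
      (hG.to_subgroup S) (hu.subgroup S)
  rcases subsingleton_or_nontrivial G with hs | hnt
  · exact isCyclic_of_subsingleton
  haveI : Group.IsNilpotent G := hG.isNilpotent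
  obtain ⟨M, hM⟩ := (eq_top_or_exists_le_coatom (⊥ : Subgroup G)).resolve_left bot_ne_top
  haveI : M.Normal := NormalizerCondition.normal_of_coatom M
    Group.normalizerCondition_of_isNilpotent hM.1
  obtain ⟨⟨a, haM⟩, ha⟩ := (hsub M hM.1.1).exists_generator
  have hMa : M = zpowers a := le_antisymm (fun m hm => by
    obtain ⟨i, hi⟩ := ha ⟨m, hm⟩
    exact ⟨i, by simpa using congrArg Subtype.val hi⟩) (zpowers_le.2 haM)
  obtain ⟨g, -, hg⟩ := SetLike.exists_of_lt hM.1.lt_top
  obtain ⟨k, hkM, hkpM⟩ := exists_power_mem hG hg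
  set x := g ^ p ^ k with hx
  have htop : M ⊔ zpowers x = ⊤ :=
    hM.1.2 _ (lt_of_le_of_ne le_sup_left fun he => hkM (he ▸ mem_sup_right (mem_zpowers x)))
  have hcomm : a * x = x * a → IsCyclic G := by
    intro hax
    refine isCyclic_of_commute hG hu fun u v => ?_
    have h1 : ∀ w : G, w ∈ centralizer ({a, x} : Set G) := by
      intro w
      have hle : M ⊔ zpowers x ≤ centralizer ({a, x} : Set G) := by
        rw [hMa, sup_le_iff, zpowers_le, zpowers_le]
        constructor <;> refine mem_centralizer_iff.2 ?_ <;>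
          rintro v (rfl | rfl)
        · rfl
        · exact hax.symm
        · exact hax
        · rfl
      exact hle (htop ▸ mem_top w)
    have h2 : M ⊔ zpowers x ≤ centralizer ({u} : Set G) := by
      rw [hMa, sup_le_iff, zpowers_le, zpowers_le]
      constructor <;> refine mem_centralizer_iff.2 fun w hw => ?_ <;>
        rw [Set.mem_singleton_iff] at hw <;> subst hw
      · exact ((mem_centralizer_iff.1 (h1 w)) a (by simp)).symm
      · exact ((mem_centralizer_iff.1 (h1 w)) x (by simp)).symm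
    exact mem_centralizer_iff.1 (h2 (htop ▸ mem_top v)) u rfl
  rcases eq_or_ne a 1 with rfl | ha1
  · exact hcomm (by rw [one_mul, mul_one])
  obtain ⟨s, hs⟩ : x ^ p ∈ zpowers a := hMa ▸ hkpM
  by_cases hps : ¬ (p : ℤ) ∣ s
  · refine hcomm ?_
    have h1 : a ∈ zpowers x :=
      zpowers_le.2 (zpow_mem (pow_mem (mem_zpowers x) p) 1)
        (by rw [zpow_one]; exact hs ▸ mem_zpowers_pow_of_coprime hG hp.out hps)
    obtain ⟨i, rfl⟩ := h1
    exact zpow_mul_comm x i 1 |>.trans (by rw [zpow_one]) |> fun h => by simpa using h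
  push Not at hps
  obtain ⟨s', rfl⟩ := hps
  -- conjugation by `x`
  obtain ⟨r, hr⟩ : x * a * x⁻¹ ∈ zpowers a := by
    rw [← hMa]; exact Normal.conj_mem inferInstance a haM x
  set L := zpowers (a ^ p) ⊔ zpowers x with hL
  have hxn : zpowers x ≤ normalizer (zpowers (a ^ p) : Set G) := by
    rw [zpowers_le, mem_normalizer_iff_map_conj_eq]
    refine eq_of_le_of_card_ge ?_ (card_map_of_injective (MulAut.conj x).injective).ge
    rw [MonoidHom.map_zpowers, zpowers_le]
    refine ⟨r, ?_⟩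
    show (a ^ p) ^ r = x * a ^ p * x⁻¹
    rw [← conj_pow, ← show a ^ r = x * a * x⁻¹ from hr, ← zpow_natCast, ← zpow_natCast,
      ← zpow_mul, ← zpow_mul, mul_comm]
  have hLne : L ≠ ⊤ := by
    intro he
    have h1 : a ∈ L := he ▸ mem_top a
    rw [hL, ← SetLike.mem_coe, coe_mul_of_right_le_normalizer_left _ _ hxn] at h1
    obtain ⟨_, ⟨i, rfl⟩, _, ⟨j, rfl⟩, hij⟩ := h1
    simp only at hij
    have hjM : x ^ j ∈ M := by
      have h2 : x ^ j = ((a ^ p) ^ i)⁻¹ * a := eq_inv_mul_of_mul_eq hij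
      rw [h2]
      exact M.mul_mem (M.inv_mem (M.zpow_mem (M.pow_mem haM p) i)) haM
    have hpj : (p : ℤ) ∣ j := by
      by_contra hpj
      exact hkM (zpowers_le.2 hjM (mem_zpowers_pow_of_coprime hG hp.out hpj))
    obtain ⟨j', rfl⟩ := hpj
    obtain ⟨m, hm⟩ := hG a
    have h3 : a ^ (1 - (p : ℤ) * (i + s' * j')) = 1 := by
      rw [zpow_sub, zpow_one, mul_inv_eq_one]
      conv_lhs => rw [← hij]
      rw [zpow_mul x, zpow_natCast, ← hs, ← zpow_natCast, ← zpow_mul, ← zpow_mul, ← zpow_add]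
      congr 1
      ring
    have h4 : ¬ (p : ℤ) ∣ 1 - (p : ℤ) * (i + s' * j') := fun hd => by
      have h5 : (p : ℤ) ∣ 1 := by
        have := dvd_add hd (dvd_mul_right (p : ℤ) (i + s' * j'))
        rwa [sub_add_cancel] at this
      exact hp.out.ne_one (Nat.dvd_one.1 (Int.natCast_dvd_natCast.1 (by simpa using h5)))
    have h6 := mem_zpowers_pow_of_coprime hG hp.out h4 (a := a)
    rw [h3, zpowers_one_eq_bot, mem_bot] at h6
    exact ha1 h6
  haveI := hsub L hLne
  have hxa : a ^ p * x = x * a ^ p := by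
    letI : CommGroup L := IsCyclic.commGroup
    exact congrArg Subtype.val (mul_comm (⟨a ^ p, mem_sup_left (mem_zpowers _)⟩ : L)
      ⟨x, mem_sup_right (mem_zpowers x)⟩)
  -- the commutator has order `p` and is central
  obtain ⟨z, -, hz1, hzc⟩ := exists_mem_center_of_normal hG M fun h0 => ha1 (by
    rw [h0, mem_bot] at haM; exact haM)
  obtain ⟨w, hwz, hw⟩ := exists_orderOf_eq (S := zpowers z) hG (zpowers_ne_bot.2 hz1)
  have hwc : w ∈ center G := zpowers_le.2 hzc hwz
  set c := x * a * x⁻¹ * a⁻¹ with hc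
  have hcp : c ^ p = 1 := by
    have hcz : c = a ^ (r - 1) := by
      rw [hc, ← show a ^ r = x * a * x⁻¹ from hr, zpow_sub, zpow_one]
    have h1 : (a ^ p) ^ r = a ^ p := by
      conv_lhs => rw [← zpow_natCast, ← zpow_mul, mul_comm, zpow_mul, zpow_natCast,
        show a ^ r = x * a * x⁻¹ from hr, conj_pow, ← hxa, mul_inv_cancel_right]
    rw [hcz, ← zpow_natCast, ← zpow_mul, mul_comm, zpow_mul, zpow_natCast, zpow_sub, zpow_one, h1,
      mul_inv_cancel]
  have hcc : c ∈ center G := zpowers_le.2 hwc (hu w c hw hcp)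
  set y := a ^ (-s') with hy
  set d := x * y * x⁻¹ * y⁻¹ with hd
  have hdc : d = c ^ (-s') := by
    have h1 : x * a * x⁻¹ = c * a := by rw [hc]; group
    rw [hd, hy, ← conj_zpow, h1, (show Commute c a from (mem_center_iff.1 hcc a).symm).mul_zpow,
      mul_inv_cancel_right]
  have hdcen : d ∈ center G := hdc ▸ zpow_mem hcc _
  have hpow := mul_pow_of_central (x := x) (y := y) (c := d) (by rw [hd]; group)
    (mem_center_iff.1 hdcen x).symm (mem_center_iff.1 hdcen y).symm p
  have hdp : d ^ p.choose 2 = 1 := by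
    obtain ⟨t, ht⟩ := hp.out.dvd_choose_self two_ne_zero
      (lt_of_le_of_ne hp.out.two_le (Ne.symm hp2))
    rw [ht, pow_mul, hdc, ← zpow_natCast (c ^ (-s')), ← zpow_mul, mul_comm, zpow_mul,
      zpow_natCast, hcp, one_zpow, one_pow]
  have hyx : (y * x) ^ p = 1 := by
    rw [hpow, hdp, one_mul, hy, ← show a ^ ((p : ℤ) * s') = x ^ p from hs, ← zpow_natCast,
      ← zpow_mul, ← zpow_add, show -s' * (p : ℤ) + p * s' = 0 by ring, zpow_zero]
  have hyxM : y * x ∈ M := by
    obtain ⟨q, hqM, hq⟩ := exists_orderOf_eq (S := M) hG fun h0 => ha1 (by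
      rw [h0, mem_bot] at haM; exact haM)
    exact zpowers_le.2 hqM (hu q _ hq hyx)
  exact absurd ((M.mul_mem_cancel_left (M.zpow_mem haM _)).1 hyxM) hkM

/-- **`p = 2`: the group is cyclic or generalised quaternion.** -/
theorem isCyclic_or_quaternion (hG : IsPGroup 2 G) (hu : UniqueSubgroup 2 G) :
    IsCyclic G ∨ ∃ n : ℕ, Nonempty (G ≃* QuaternionGroup (2 ^ (n + 1))) := by
  haveI : Fact (Nat.Prime 2) := ⟨Nat.prime_two⟩
  obtain ⟨A, ⟨hAn, hAab⟩, hAmax⟩ := Set.exists_max_image
    {A : Subgroup G | A.Normal ∧ ∀ a ∈ A, ∀ b ∈ A, a * b = b * a} (fun A => Nat.card A)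
    (Set.toFinite _) ⟨⊥, inferInstance, fun a ha b hb => by rw [mem_bot.1 ha, mem_bot.1 hb]⟩
  haveI := hAn
  have hCA : centralizer (A : Set G) ≤ A := by
    set f := QuotientGroup.mk' A with hf
    haveI : ((centralizer (A : Set G)).map f).Normal :=
      Normal.map inferInstance f (QuotientGroup.mk'_surjective A)
    by_contra hne
    obtain ⟨zb, hzb, hzb1, hzc⟩ := exists_mem_center_of_normal (hG.to_quotient A)
      ((centralizer (A : Set G)).map f) (by
        rw [Ne, Subgroup.map_eq_bot_iff, QuotientGroup.ker_mk']; exact hne)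
    obtain ⟨z, hz, rfl⟩ := hzb
    have hzA : z ∉ A := fun h => hzb1 ((QuotientGroup.eq_one_iff z).2 h)
    haveI : (zpowers (f z)).Normal := ⟨fun w hw v => by
      rwa [mem_center_iff.1 (zpowers_le.2 hzc hw) v, mul_inv_cancel_right]⟩
    have hn : (A ⊔ zpowers z).Normal := by
      have h1 : (zpowers (f z)).comap f = A ⊔ zpowers z := by
        rw [← MonoidHom.map_zpowers, comap_map_eq, QuotientGroup.ker_mk', sup_comm]
      rw [← h1]; infer_instance
    have hab : ∀ u ∈ A ⊔ zpowers z, ∀ v ∈ A ⊔ zpowers z, u * v = v * u := by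
      have hle : A ⊔ zpowers z ≤ centralizer ((A ⊔ zpowers z : Subgroup G) : Set G) := by
        rw [sup_le_iff, zpowers_le, Subgroup.sup_eq_closure, centralizer_closure]
        refine ⟨fun u hu' => mem_centralizer_iff.2 ?_, mem_centralizer_iff.2 ?_⟩
        · rintro w (hw | ⟨i, rfl⟩)
          · exact hAab w hw u hu'
          · exact ((show Commute u z from mem_centralizer_iff.1 hz u hu').zpow_right i).symm.eq
        · rintro w (hw | ⟨i, rfl⟩)
          · exact mem_centralizer_iff.1 hz w hw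
          · exact ((Commute.refl z).zpow_left i).eq
      exact fun u hu' v hv => mem_centralizer_iff.1 (hle hv) u hu'
    have h1 := hAmax _ ⟨hn, hab⟩
    exact hzA ((eq_of_le_of_card_ge le_sup_left h1).symm ▸ mem_sup_right (mem_zpowers z))
  by_cases hAtop : A = ⊤
  · exact Or.inl (isCyclic_of_commute hG hu fun a b => hAab a (hAtop ▸ mem_top a) b
      (hAtop ▸ mem_top b))
  refine Or.inr ?_
  obtain ⟨⟨a, haA⟩, ha⟩ := (isCyclic_subgroup_of_comm hG hu A hAab).exists_generator
  have hAa : A = zpowers a := le_antisymm (fun m hm => by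
    obtain ⟨i, hi⟩ := ha ⟨m, hm⟩
    exact ⟨i, by simpa using congrArg Subtype.val hi⟩) (zpowers_le.2 haA)
  have hself : ∀ x : G, x * a = a * x → x ∈ A := fun x hx => hCA (mem_centralizer_iff.2 fun w hw => by
    rw [hAa] at hw
    obtain ⟨i, rfl⟩ := hw
    exact ((show Commute x a from hx).zpow_right i).symm.eq)
  obtain ⟨N, hN⟩ := IsPGroup.iff_card.1 (hG.to_subgroup A)
  rw [hAa, Nat.card_zpowers] at hN
  obtain ⟨g₀, hg₀⟩ : ∃ g, g ∉ A := by
    by_contra h
    push Not at h
    exact hAtop (eq_top_iff.2 fun g _ => h g)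
  -- the order of `a` is at least `4`
  have ha4 : ∀ v : ℤ, a ^ v = 1 → 4 ∣ v := by
    intro v hv
    have h1 : (orderOf a : ℤ) ∣ v := orderOf_dvd_iff_zpow_eq_one.2 hv
    have hN2 : 2 ≤ N := by
      by_contra hlt
      have hsmall : a ^ 2 = 1 := by
        rw [← orderOf_dvd_iff_pow_eq_one, hN]
        exact (pow_dvd_pow 2 (by omega : N ≤ 1)).trans (by simp)
      have h2 : (g₀ * a * g₀⁻¹) ∈ zpowers a := hAa ▸ hAn.conj_mem a haA g₀
      obtain ⟨i, hi⟩ := h2
      refine hg₀ (hself g₀ ?_)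
      rcases Int.even_or_odd i with ⟨t, ht⟩ | ⟨t, ht⟩
      · have h3 : g₀ * a * g₀⁻¹ = 1 := by
          rw [← show a ^ i = g₀ * a * g₀⁻¹ from hi, ht, ← two_mul, zpow_mul]
          simp [hsmall, zpow_ofNat]
        rw [mul_inv_eq_one, mul_eq_left] at h3
        rw [h3, mul_one, one_mul]
      · have h3 : g₀ * a * g₀⁻¹ = a := by
          rw [← show a ^ i = g₀ * a * g₀⁻¹ from hi, ht, zpow_add, zpow_mul, zpow_one]
          simp [hsmall, zpow_ofNat]
        exact mul_inv_eq_iff_eq_mul.1 h3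
    refine dvd_trans ?_ h1
    rw [hN]
    exact_mod_cast (show 4 ∣ 2 ^ N from pow_dvd_pow 2 hN2)
  have ha1 : a ≠ 1 := fun h => by
    have := ha4 1 (by rw [h, one_zpow]); omega
  -- the involution
  obtain ⟨z, hzA, hz⟩ := exists_orderOf_eq (p := 2) (S := A) hG fun h0 => ha1 (by
    rw [h0, mem_bot] at haA; exact haA)
  have hz2 : ∀ w : G, w ^ 2 = 1 → w = 1 ∨ w = z := by
    intro w hw
    obtain ⟨i, rfl⟩ := hu z w hz hw
    rcases Int.even_or_odd i with ⟨t, ht⟩ | ⟨t, ht⟩
    · left
      show z ^ i = 1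
      rw [ht, ← two_mul, zpow_mul]
      simp [zpow_ofNat, ← hz, pow_orderOf_eq_one]
    · right
      show z ^ i = z
      rw [ht, zpow_add, zpow_mul, zpow_one]
      simp [zpow_ofNat, ← hz, pow_orderOf_eq_one]
  have hzmem : ∀ w : G, w ^ 2 = 1 → w ∈ A := fun w hw =>
    (hz2 w hw).elim (fun h => h ▸ A.one_mem) (fun h => h ▸ hzA)
  -- elements outside `A` whose square lies in it invert `a`
  have hinv : ∀ x : G, x ∉ A → x ^ 2 ∈ A → x * a * x⁻¹ = a⁻¹ ∧ x ^ 2 = z := by
    intro x hx hx2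
    obtain ⟨r, hr⟩ : x * a * x⁻¹ ∈ zpowers a := hAa ▸ hAn.conj_mem a haA x
    obtain ⟨s, hs⟩ : x ^ 2 ∈ zpowers a := hAa ▸ hx2
    simp only at hr hs
    have hsodd : (2 : ℤ) ∣ s := by
      by_contra hd
      obtain ⟨i, hi⟩ := mem_zpowers_pow_of_coprime hG Nat.prime_two (a := a) (s := s)
        (by simpa using hd)
      refine hx (hself x ?_)
      rw [← show (a ^ s) ^ i = a from hi, hs]
      exact (((Commute.refl x).pow_right 2).zpow_right i).eq
    have hsq : ∀ i : ℤ, (a ^ i * x) ^ 2 = a ^ (i * (1 + r) + s) := by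
      intro i
      have h1 : x * a ^ i * x⁻¹ = a ^ (r * i) := by rw [← conj_zpow, ← hr, ← zpow_mul]
      calc (a ^ i * x) ^ 2 = a ^ i * (x * a ^ i * x⁻¹) * x ^ 2 := by rw [sq, sq]; group
        _ = a ^ (i * (1 + r) + s) := by
          rw [h1, ← hs, ← zpow_add, ← zpow_add]; congr 1; ring
    have hbad : ∀ i : ℤ, (a ^ i * x) ^ 2 ≠ 1 := fun i hi =>
      hx ((A.mul_mem_cancel_left (A.zpow_mem haA i)).1 (hzmem _ hi))
    have hrodd : r % 4 = 1 ∨ r % 4 = 3 := by
      by_contra hc
      obtain ⟨t, ht⟩ : (2 : ℤ) ∣ r := by omega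
      have h1 : (a ^ r) ^ (2 ^ N / 2 : ℕ) = 1 := by
        rcases Nat.eq_zero_or_pos N with h0 | h0
        · rw [h0, pow_zero, orderOf_eq_one_iff] at hN
          exact absurd hN ha1
        · obtain ⟨N', rfl⟩ := Nat.exists_eq_succ_of_ne_zero h0.ne'
          rw [pow_succ, Nat.mul_div_cancel _ two_pos, ← zpow_natCast, ← zpow_mul, ht,
            show 2 * t * ((2 ^ N' : ℕ) : ℤ) = ((2 ^ (N' + 1) : ℕ) : ℤ) * t by push_cast; ring,
            zpow_mul, zpow_natCast, show 2 ^ (N' + 1) = orderOf a by rw [hN],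
            pow_orderOf_eq_one, one_zpow]
      rw [hr, conj_pow, mul_inv_eq_one, mul_eq_left] at h1
      have h2 := orderOf_dvd_of_pow_eq_one h1
      rw [hN] at h2
      rcases Nat.eq_zero_or_pos N with h0 | h0
      · rw [h0, pow_zero, orderOf_eq_one_iff] at hN
        exact absurd hN ha1
      · obtain ⟨N', rfl⟩ := Nat.exists_eq_succ_of_ne_zero h0.ne'
        rw [pow_succ, Nat.mul_div_cancel _ two_pos] at h2
        have := Nat.le_of_dvd (pow_pos two_pos N') h2
        have := pow_pos (two_pos (α := ℕ)) N'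
        omega
    obtain ⟨s', hs'⟩ := hsodd
    rcases hrodd with h4 | h4
    · exfalso
      obtain ⟨t, ht⟩ : (4 : ℤ) ∣ r - 1 := by omega
      obtain ⟨u, v, huv⟩ : IsCoprime (2 * t + 1) ((2 : ℤ) ^ N) :=
        (show IsCoprime (2 * t + 1) (2 : ℤ) from ⟨1, -t, by ring⟩).pow_right
      refine hbad (-s' * u) ?_
      rw [hsq, hs', show -s' * u * (1 + r) + 2 * s' = ((2 ^ N : ℕ) : ℤ) * (2 * s' * v) by
        push_cast
        linear_combination -(s' * u) * ht - 2 * s' * huv,
        zpow_mul, zpow_natCast, show 2 ^ N = orderOf a from hN.symm, pow_orderOf_eq_one, one_zpow]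
    · obtain ⟨t, ht⟩ : (4 : ℤ) ∣ r - 3 := by omega
      have h2s : a ^ (2 * s) = 1 := by
        have h1 : a ^ (r * s) = a ^ s := by
          rw [zpow_mul, hr, conj_zpow, hs]
          group
        have h2 : a ^ ((2 * s) * (2 * t + 1)) = 1 := by
          rw [show (2 * s) * (2 * t + 1) = r * s - s by linear_combination -s * ht, zpow_sub, h1,
            mul_inv_cancel]
        obtain ⟨u, v, huv⟩ : IsCoprime (2 * t + 1) ((2 : ℤ) ^ N) :=
          (show IsCoprime (2 * t + 1) (2 : ℤ) from ⟨1, -t, by ring⟩).pow_right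
        rw [show 2 * s = (2 * s) * (2 * t + 1) * u + ((2 ^ N : ℕ) : ℤ) * (2 * s * v) by
          push_cast; linear_combination -(2 * s) * huv, zpow_add, zpow_mul, h2, one_zpow, one_mul,
          zpow_mul, zpow_natCast, show 2 ^ N = orderOf a from hN.symm, pow_orderOf_eq_one, one_zpow]
      have hx2z : x ^ 2 = z := by
        refine (hz2 _ ?_).resolve_left fun h1 => hbad 0 (by rw [zpow_zero, one_mul, h1])
        rw [← hs, ← zpow_natCast, ← zpow_mul, mul_comm]
        exact h2s
      refine ⟨?_, hx2z⟩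
      rw [← hr, ← zpow_neg_one]
      by_contra hne
      have hw : a ^ (1 + r) ≠ 1 := fun h1 => hne (by
        rw [zpow_add, zpow_one, mul_eq_one_iff_eq_inv'] at h1
        rw [zpow_neg_one, h1])
      obtain ⟨q, hq, hq2⟩ := exists_orderOf_eq (p := 2) (S := zpowers (a ^ (1 + r))) hG
        (zpowers_ne_bot.2 hw)
      have hqz : q = z := (hz2 q (by rw [← hq2, pow_orderOf_eq_one])).resolve_left fun h1 => by
        rw [h1, orderOf_one] at hq2; omega
      obtain ⟨i, hi⟩ := hqz ▸ hq
      refine hbad i ?_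
      rw [hsq, zpow_add, hs, hx2z, mul_comm i, zpow_mul, show (a ^ (1 + r)) ^ i = z from hi, ← sq,
        ← hz, pow_orderOf_eq_one]
  -- every square lies in `A`
  have hsqA : ∀ g : G, g ^ 2 ∈ A := by
    intro g
    by_contra hg
    obtain ⟨k, hk, hk2⟩ := exists_power_mem hG hg
    rw [← pow_mul, mul_comm, pow_mul] at hk
    set y := g ^ 2 ^ k with hy
    have hy4 : (y ^ 2) ^ 2 ∈ A := by
      have : (g ^ 2) ^ 2 ^ k = y ^ 2 := by rw [hy, ← pow_mul, ← pow_mul, mul_comm]
      rw [this] at hk2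
      exact hk2
    obtain ⟨hinv', -⟩ := hinv (y ^ 2) hk hy4
    obtain ⟨r, hr⟩ : y * a * y⁻¹ ∈ zpowers a := hAa ▸ hAn.conj_mem a haA y
    simp only at hr
    have h1 : a ^ (r * r + 1) = 1 := by
      rw [zpow_add, zpow_mul, hr, conj_zpow, hr, zpow_one,
        show y * (y * a * y⁻¹) * y⁻¹ = y ^ 2 * a * (y ^ 2)⁻¹ by rw [sq]; group, hinv',
        inv_mul_cancel]
    have h2 := ha4 _ h1
    rcases Int.even_or_odd r with ⟨t, ht⟩ | ⟨t, ht⟩
    · subst ht
      have h3 : (4 : ℤ) ∣ (t + t) * (t + t) := ⟨t * t, by ring⟩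
      omega
    · subst ht
      have h3 : (4 : ℤ) ∣ (2 * t + 1) * (2 * t + 1) - 1 := ⟨t * t + t, by ring⟩
      omega
  obtain ⟨hxinv, hxz⟩ := hinv g₀ hg₀ (hsqA g₀)
  have hcoset : ∀ y : G, y ∉ A → g₀⁻¹ * y ∈ A := fun y hy => by
    refine hself _ ?_
    have h1 : y * a * y⁻¹ = g₀ * a * g₀⁻¹ := by rw [(hinv y hy (hsqA y)).1, hxinv]
    calc g₀⁻¹ * y * a = g₀⁻¹ * (y * a * y⁻¹) * y := by group
      _ = a * (g₀⁻¹ * y) := by rw [h1]; group
  -- the isomorphism
  have hN2 : 2 ≤ N := by
    by_contra hlt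
    have h1 := ha4 ((2 ^ N : ℕ) : ℤ) (by rw [zpow_natCast, ← hN, pow_orderOf_eq_one])
    interval_cases N <;> simp at h1
  obtain ⟨m, rfl⟩ : ∃ m, N = m + 2 := ⟨N - 2, by omega⟩
  refine ⟨m, ⟨?_⟩⟩
  set M := 2 ^ (m + 1) with hM
  have hord : orderOf a = 2 * M := by rw [hN, hM, pow_succ']
  haveI : NeZero (2 * M) := ⟨by positivity⟩
  let e : ZMod (2 * M) → G := fun i => a ^ i.val
  have hadd : ∀ i j, e (i + j) = e i * e j := fun i j => by
    show a ^ (i + j).val = a ^ i.val * a ^ j.val
    rw [← pow_add, pow_eq_pow_iff_modEq, hord, ZMod.val_add]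
    exact Nat.mod_modEq _ _
  have he0 : e 0 = 1 := by simp [e]
  have hneg : ∀ i, e (-i) = (e i)⁻¹ := fun i =>
    eq_inv_of_mul_eq_one_left (by rw [← hadd, neg_add_cancel, he0])
  have heM : e (M : ZMod (2 * M)) = z := by
    have hMlt : M < 2 * M := by have := pow_pos (two_pos (α := ℕ)) (m + 1); omega
    refine (hz2 _ ?_).resolve_left fun h1 => ?_
    · show (a ^ (M : ZMod (2 * M)).val) ^ 2 = 1
      rw [ZMod.val_natCast, Nat.mod_eq_of_lt hMlt, ← pow_mul, mul_comm, ← hord, pow_orderOf_eq_one]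
    · have h2 : a ^ (M : ZMod (2 * M)).val = 1 := h1
      rw [ZMod.val_natCast, Nat.mod_eq_of_lt hMlt] at h2
      have h3 := Nat.le_of_dvd (by positivity) (orderOf_dvd_of_pow_eq_one h2)
      omega
  have hswap : ∀ i, e i * g₀ = g₀ * e (-i) := fun i => by
    rw [hneg]
    show a ^ i.val * g₀ = g₀ * (a ^ i.val)⁻¹
    have h1 : g₀ * (a ^ i.val) * g₀⁻¹ = (a ^ i.val)⁻¹ := by rw [← conj_pow, hxinv, inv_pow]
    have h2 : g₀ * (a ^ i.val)⁻¹ * g₀⁻¹ = a ^ i.val := by
      rw [← inv_inj, ← conj_inv, inv_inv, h1]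
    exact (mul_inv_eq_iff_eq_mul.1 h2).symm
  let F : QuaternionGroup M →* G :=
    MonoidHom.mk' (fun q => match q with
      | .a i => e i
      | .xa i => g₀ * e i) (by
      rintro (i | i) (j | j) <;> simp only [QuaternionGroup.a_mul_a, QuaternionGroup.a_mul_xa,
        QuaternionGroup.xa_mul_a, QuaternionGroup.xa_mul_xa]
      · exact hadd i j
      · rw [← mul_assoc, hswap, mul_assoc, ← hadd, neg_add_eq_sub]
      · rw [hadd, mul_assoc]
      · rw [mul_assoc g₀ (e i), ← mul_assoc (e i), hswap, mul_assoc g₀ (e (-i)), ← mul_assoc g₀ g₀,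
          ← sq, hxz, ← heM, ← hadd, ← hadd]
        congr 1
        ring)
  have heinj : Function.Injective e := fun i j hij =>
    ZMod.val_injective _ (pow_injOn_Iio_orderOf (by rw [Set.mem_Iio, hord]; exact ZMod.val_lt i)
      (by rw [Set.mem_Iio, hord]; exact ZMod.val_lt j) hij)
  have hemem : ∀ i, e i ∈ A := fun i => A.pow_mem haA _
  have hesurj : ∀ w ∈ A, ∃ i, e i = w := fun w hw => by
    rw [hAa, ← mem_powers_iff_mem_zpowers] at hw
    obtain ⟨k, rfl⟩ := hw
    refine ⟨(k : ZMod (2 * M)), ?_⟩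
    show a ^ ((k : ZMod (2 * M))).val = a ^ k
    rw [ZMod.val_natCast, ← hord, pow_mod_orderOf]
  refine (MulEquiv.ofBijective F ⟨?_, ?_⟩).symm
  · rintro (i | i) (j | j) hij
    · exact congrArg QuaternionGroup.a (heinj hij)
    · exact absurd ((A.mul_mem_cancel_right (hemem j)).1 (show g₀ * e j ∈ A from
        (show e i = g₀ * e j from hij) ▸ hemem i)) hg₀
    · exact absurd ((A.mul_mem_cancel_right (hemem i)).1 (show g₀ * e i ∈ A from
        (show g₀ * e i = e j from hij).symm ▸ hemem j)) hg₀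
    · exact congrArg QuaternionGroup.xa (heinj (mul_left_cancel hij))
  · intro w
    by_cases hw : w ∈ A
    · obtain ⟨i, hi⟩ := hesurj w hw
      exact ⟨.a i, hi⟩
    · obtain ⟨i, hi⟩ := hesurj _ (hcoset w hw)
      refine ⟨.xa i, ?_⟩
      show g₀ * e i = w
      rw [hi, mul_inv_cancel_left]

end PGroup

end FA.FrobeniusComplements
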