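import Fermat.Agent.FrobeniusComplements.Basic
import Fermat.Agent.FrobeniusComplements.PGroups
import Mathlib.GroupTheory.SpecificGroups.ZGroup

/-!
# The structure of groups acting fixed-point-freely

Abelian subgroups are cyclic, Sylow subgroups cyclic or quaternion, and a group of odd order is
metacyclic.
-/

set_option autoImplicit false
set_option linter.style.haveILetI false

namespace FA.FrobeniusComplements

open Subgroup FA.Thompson

variable {H : Type*} [Group H] [Finite H] {K : Type*} [Group K] [Finite K] [Nontrivial K]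
  {φ : H →* MulAut K}

/-- **Abelian subgroups are cyclic.** -/
theorem isCyclic_of_ab (hφ : FpfAction φ) (A : Subgroup H)
    (hA : ∀ x ∈ A, ∀ y ∈ A, x * y = y * x) : IsCyclic A := by
  letI : CommGroup A := { (inferInstance : Group A) with
    mul_comm := fun x y => Subtype.ext (hA x x.2 y y.2) }
  refine isCyclic_of_comm_of_unique (A := A) fun p hp a b ha hb => ?_
  haveI : Fact p.Prime := ⟨hp⟩
  obtain ⟨i, hi⟩ := mem_zpowers_of_commute hφ (a := (a : H)) (b := (b : H))
    (by rw [orderOf_coe, ha]) (by rw [← coe_pow, hb, coe_one]) (hA a a.2 b b.2)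
  exact ⟨i, Subtype.ext (by simpa using hi)⟩

/-- A `p`-subgroup has only one subgroup of order `p`. -/
theorem uniqueSubgroup_of_isPGroup (hφ : FpfAction φ) {p : ℕ} [hp : Fact p.Prime] {P : Subgroup H}
    (hP : IsPGroup p P) : UniqueSubgroup p P := by
  intro a b ha hb
  have hP0 : (⊤ : Subgroup P) ≠ ⊥ := fun h0 => hp.out.ne_one (by
    have h1 : a ∈ (⊥ : Subgroup P) := h0 ▸ mem_top a
    rw [← ha, mem_bot.1 h1, orderOf_one])
  obtain ⟨z, -, hz1, hzc⟩ := exists_mem_center_of_normal hP ⊤ hP0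
  obtain ⟨w, hwz, hw⟩ := exists_orderOf_eq (S := zpowers z) hP (zpowers_ne_bot.2 hz1)
  have hwc : w ∈ center P := zpowers_le.2 hzc hwz
  have key : ∀ c : P, c ^ p = 1 → c ∈ zpowers w := fun c hc => by
    obtain ⟨i, hi⟩ := mem_zpowers_of_commute hφ (a := (w : H)) (b := (c : H))
      (by rw [orderOf_coe, hw]) (by rw [← coe_pow, hc, coe_one])
      (congrArg Subtype.val (mem_center_iff.1 hwc c)).symm
    exact ⟨i, Subtype.ext (by simpa using hi)⟩
  have he : zpowers a = zpowers w := eq_of_le_of_card_ge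
    (zpowers_le.2 (key a (by rw [← ha, pow_orderOf_eq_one])))
    (by rw [Nat.card_zpowers, Nat.card_zpowers, ha, hw])
  rw [he]
  exact key b hb

/-- **Sylow subgroups for odd `p`.** -/
theorem isCyclic_of_isPGroup_odd (hφ : FpfAction φ) {p : ℕ} [Fact p.Prime] (hp2 : p ≠ 2)
    {P : Subgroup H} (hP : IsPGroup p P) : IsCyclic P :=
  isCyclic_of_unique_odd hp2 hP (uniqueSubgroup_of_isPGroup hφ hP)

/-- **Sylow subgroups for `p = 2`.** -/
theorem isCyclic_or_quaternion_of_isPGroup (hφ : FpfAction φ) {P : Subgroup H}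
    (hP : IsPGroup 2 P) :
    IsCyclic P ∨ ∃ n : ℕ, Nonempty (P ≃* QuaternionGroup (2 ^ (n + 1))) := by
  haveI : Fact (Nat.Prime 2) := ⟨Nat.prime_two⟩
  exact isCyclic_or_quaternion hP (uniqueSubgroup_of_isPGroup hφ hP)

/-- **A group of odd order is a Z-group.** -/
theorem isZGroup_of_odd (hφ : FpfAction φ) (hodd : Odd (Nat.card H)) : IsZGroup H := by
  refine ⟨fun p hp P => ?_⟩
  haveI : Fact p.Prime := ⟨hp⟩
  rcases eq_or_ne p 2 with rfl | hp2
  · obtain ⟨k, hk⟩ := IsPGroup.iff_card.1 P.2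
    have hk0 : k = 0 := by
      by_contra hk0
      have h1 : 2 ∣ Nat.card H :=
        (hk ▸ dvd_pow_self 2 hk0 : 2 ∣ Nat.card (P : Subgroup H)).trans
          (P : Subgroup H).card_subgroup_dvd_card
      exact (Nat.not_even_iff_odd.2 hodd) (even_iff_two_dvd.2 h1)
    rw [hk0, pow_zero] at hk
    haveI : Subsingleton (P : Subgroup H) := (Nat.card_eq_one_iff_unique.1 hk).1
    exact isCyclic_of_subsingleton
  · exact isCyclic_of_isPGroup_odd hφ hp2 P.2

omit [Finite K] [Nontrivial K] in
/-- A subgroup meeting its conjugates trivially acts fixed-point-freely on a normal subgroup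
meeting it trivially. -/
theorem fpfAction_conj {G : Type*} [Group G] {L N : Subgroup G} [N.Normal]
    (hL : ∀ g ∉ L, ∀ x ∈ L, g * x * g⁻¹ ∈ L → x = 1) (hd : Disjoint N L) :
    FpfAction ((MulAut.conjNormal (H := N)).comp L.subtype) := by
  intro t ht k hk
  have h1 : (t : G) * k * (t : G)⁻¹ = k := congrArg Subtype.val hk
  by_contra hk1
  have hkL : (k : G) ∉ L := fun h => hk1 (Subtype.ext (disjoint_def.1 hd k.2 h))
  have h2 : (k : G) * t * (k : G)⁻¹ = t := by
    rw [mul_inv_eq_iff_eq_mul] at h1 ⊢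
    exact h1.symm
  exact ht (Subtype.ext (hL _ hkL _ t.2 (by rw [h2]; exact t.2)))

end FA.FrobeniusComplements
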